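/-
S25 package ATLAS, sub-package TW — LEAF `CHIK`, core (helper5711), plan of sub-captain helper228.

`χ(L(N·D∞ - x₁ - … - x_m)) = χ(L) + N·n₀ - m` over an algebraically closed field, in the
sub-module form `((divDatum l) • L)⟨N⟩`, from
* TWISTCHI `gchi_twist_succ` : `χ(M⟨n+1⟩) = χ(M⟨n⟩) + dim B₂/(g)` (cokernel of `g : M⟨n⟩ → M⟨n+1⟩`);
* SUBCHI  `gchi_smul_of_isMaximal` : `χ(𝔭 • M) = χ(M) - 1` for a point datum `𝔭`;
* `smulSmulIso : 𝔞 • (𝔟 • N) ≅ (𝔞 * 𝔟) • N`, `oneSmulIso : 1 • N ≅ N`.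
The two field-independent inputs (leaves `INST`, `N0`) are hypotheses here; `TW/CHIK.lean`
plugs them in.
-/
import Fermat.Agent.S25.ATLAS.TW.Defs
import Fermat.Agent.S25.ATLAS.TW.Curve

set_option autoImplicit false
set_option linter.style.haveILetI false
set_option linter.unusedSectionVars false

universe u

namespace Fermat.Agent.S25.ATLAS.TW.CHIK

open Fermat.Agent.S25 H1451
open scoped TensorProduct

/-! ### Single ring: `I • (⊤ : Submodule B P) ≃ I • P` -/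

section SingleRing

variable {B : Type*} [CommRing B] {M : Type*} [AddCommGroup M] [Module B M]

/-- For a submodule `P` of `M` and an ideal `I`: the submodule `I • ⊤` of `P` is `I • P`. -/
def smulTopEquiv (I : Ideal B) (P Q : Submodule B M) (h : I • P = Q) :
    (I • (⊤ : Submodule B P) : Submodule B P) ≃ₗ[B] Q :=
  (Submodule.equivSubtypeMap P (I • ⊤)).trans (LinearEquiv.ofEq _ _ (by
    rw [Submodule.map_smul'', Submodule.map_subtype_top, h]))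

@[simp] theorem smulTopEquiv_coe (I : Ideal B) (P Q : Submodule B M) (h : I • P = Q)
    (x : (I • (⊤ : Submodule B P) : Submodule B P)) :
    ((smulTopEquiv I P Q h x : Q) : M) = ((x : P) : M) := rfl

end SingleRing

/-! ### Any two-chart -/

section General

variable {R : Type u} [CommRing R] {𝔹 : TwoChart R}

/-- Multiplication by `g` on the second chart: `N⟨n⟩ → N⟨n+1⟩` (the inclusion
`N(n·D∞) ⊆ N((n+1)·D∞)`). -/
def mulG (N : GluedModule 𝔹) (n : ℤ) : GluedModule.Hom (N.twist n) (N.twist (n + 1)) where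
  φ₁ := LinearMap.id
  φ₂ := 𝔹.g • LinearMap.id
  φ₁₂ := LinearMap.id
  comm₁ _ := rfl
  comm₂ x := by
    change ((𝔹.u ^ n : 𝔹.B₁₂ˣ) : 𝔹.B₁₂) • N.ι₂ x =
      ((𝔹.u ^ (n + 1) : 𝔹.B₁₂ˣ) : 𝔹.B₁₂) • N.ι₂ (𝔹.g • x)
    rw [N.ι₂_smul, ← mul_smul, zpow_add_one, Units.val_mul, mul_assoc, TwoChart.u_val, 𝔹.fg,
      mul_one]

theorem range_mulG_φ₂ (N : GluedModule 𝔹) (n : ℤ) :
    LinearMap.range (mulG N n).φ₂ = (Ideal.span {𝔹.g} • ⊤ : Submodule 𝔹.B₂ N.N₂) := by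
  apply le_antisymm
  · rintro _ ⟨x, rfl⟩
    exact Submodule.smul_mem_smul (Ideal.subset_span rfl) trivial
  · intro y hy
    refine Submodule.smul_induction_on hy (fun a ha m _ => ?_) (fun x y hx hy => add_mem hx hy)
    obtain ⟨c, rfl⟩ := Ideal.mem_span_singleton'.mp ha
    exact ⟨c • m, by
      change 𝔹.g • (c • m) = (c * 𝔹.g) • m
      rw [← mul_smul, mul_comm]⟩

/-- `𝔞 • (𝔟 • N) ≅ (𝔞 * 𝔟) • N`. -/
def smulSmulIso (𝔞 𝔟 : IdealDatum 𝔹) (N : GluedModule 𝔹) :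
    GluedModule.Iso (𝔞.smul (𝔟.smul N)) ((𝔞 * 𝔟).smul N) where
  e₁ := smulTopEquiv 𝔞.a₁ (𝔟.a₁ • ⊤) ((𝔞 * 𝔟).a₁ • ⊤) (by
    rw [IdealDatum.mul_a₁, Submodule.mul_smul])
  e₂ := smulTopEquiv 𝔞.a₂ (𝔟.a₂ • ⊤) ((𝔞 * 𝔟).a₂ • ⊤) (by
    rw [IdealDatum.mul_a₂, Submodule.mul_smul])
  e₁₂ := smulTopEquiv 𝔞.a₁₂ (𝔟.a₁₂ • ⊤) ((𝔞 * 𝔟).a₁₂ • ⊤) (by
    rw [IdealDatum.a₁₂_eq₁, IdealDatum.a₁₂_eq₁, IdealDatum.a₁₂_eq₁, IdealDatum.mul_a₁,
      Ideal.map_mul, Submodule.mul_smul])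
  comm₁ _ := rfl
  comm₂ _ := rfl

/-- `1 • N ≅ N`. -/
noncomputable def oneSmulIso (N : GluedModule 𝔹) :
    GluedModule.Iso ((1 : IdealDatum 𝔹).smul N) N :=
  isoOfBijective ((1 : IdealDatum 𝔹).sub N).incl
    ⟨Submodule.injective_subtype _, fun n => ⟨⟨n, by
      change n ∈ ((1 : IdealDatum 𝔹).a₁ • ⊤ : Submodule 𝔹.B₁ N.N₁)
      rw [IdealDatum.one_a₁, Submodule.top_smul]; trivial⟩, rfl⟩⟩
    ⟨Submodule.injective_subtype _, fun n => ⟨⟨n, by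
      change n ∈ ((1 : IdealDatum 𝔹).a₂ • ⊤ : Submodule 𝔹.B₂ N.N₂)
      rw [IdealDatum.one_a₂, Submodule.top_smul]; trivial⟩, rfl⟩⟩

end General

/-! ### Curve charts over an algebraically closed field -/

section Curve

variable {κ : Type u} [Field κ] [IsAlgClosed κ] {𝔹 : TwoChart κ} (H : CurveChartHyp 𝔹)
  {N : GluedModule 𝔹}

include H

/-- TWISTCHI: `χ(N⟨n+1⟩) = χ(N⟨n⟩) + dim B₂/(g)`. -/
theorem gchi_twist_succ (hN : N.IsLineBundle) (n : ℤ) :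
    gchi (N.twist (n + 1)) =
      gchi (N.twist n) + (Module.finrank κ (𝔹.B₂ ⧸ Ideal.span {𝔹.g}) : ℤ) := by
  haveI := H.ded₂
  haveI := H.ft₂
  haveI := hN.inv₂
  have hinj₂ : Function.Injective (mulG N n).φ₂ := by
    rw [injective_iff_map_eq_zero]
    intro x hx
    exact smul_eq_zero_of_invertible H.g_ne_zero hx
  have hspan : (Ideal.span {𝔹.g} : Ideal 𝔹.B₂) ≠ ⊥ := by
    simpa using H.g_ne_zero
  haveI hs1 : Subsingleton (coker (mulG N n)).N₁ := by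
    change Subsingleton (N.N₁ ⧸ LinearMap.range (LinearMap.id : N.N₁ →ₗ[𝔹.B₁] N.N₁))
    rw [LinearMap.range_id]
    infer_instance
  haveI hs12 : Subsingleton (coker (mulG N n)).N₁₂ := by
    change Subsingleton (N.N₁₂ ⧸ LinearMap.range (LinearMap.id : N.N₁₂ →ₗ[𝔹.B₁₂] N.N₁₂))
    rw [LinearMap.range_id]
    infer_instance
  haveI hf1 : Module.Finite κ (coker (mulG N n)).N₁ := inferInstance
  have hfr2 : Module.Finite κ (coker (mulG N n)).N₂ ∧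
      Module.finrank κ (coker (mulG N n)).N₂ = Module.finrank κ (𝔹.B₂ ⧸ Ideal.span {𝔹.g}) := by
    change Module.Finite κ (N.N₂ ⧸ LinearMap.range (mulG N n).φ₂) ∧
      Module.finrank κ (N.N₂ ⧸ LinearMap.range (mulG N n).φ₂) = _
    rw [range_mulG_φ₂]
    obtain ⟨hfin, ⟨e⟩⟩ := exists_equiv_quot_of_ne_bot κ N.N₂ hspan
    exact ⟨Module.Finite.equiv (e.restrictScalars κ).symm,
      LinearEquiv.finrank_eq (e.restrictScalars κ)⟩
  haveI hf2 := hfr2.1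
  have h := gchi_eq_add_coker (mulG N n) Function.injective_id hinj₂
    (H.finCoh (GluedModule.twist_isLineBundle hN n)) (finCoh_of_finite _)
  have h1 : Module.finrank κ (coker (mulG N n)).N₁ = 0 := Module.finrank_zero_of_subsingleton
  have h12 : Module.finrank κ (coker (mulG N n)).N₁₂ = 0 :=
    Module.finrank_zero_of_subsingleton
  rw [h, gchi_of_finite (coker (mulG N n)), hfr2.2, h1, h12]
  simp

/-- `χ(N⟨n⟩) = χ(N) + n · dim B₂/(g)` for `n : ℕ`. -/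
theorem gchi_twist_nat (hN : N.IsLineBundle) (n : ℕ) :
    gchi (N.twist (n : ℤ)) =
      gchi N + (n : ℤ) * (Module.finrank κ (𝔹.B₂ ⧸ Ideal.span {𝔹.g}) : ℤ) := by
  induction n with
  | zero =>
    rw [Nat.cast_zero, zero_mul, add_zero]
    exact gchi_congr (GluedModule.twistZero N)
  | succ n ih =>
    rw [Nat.cast_succ, gchi_twist_succ H hN, ih]
    ring

/-- SUBCHI at a point: `χ(𝔭 • N) = χ(N) - 1` for an ideal datum of a closed point of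
`U₁ ∩ U₂`. -/
theorem gchi_smul_of_isMaximal (hN : N.IsLineBundle) (𝔭 : IdealDatum 𝔹)
    (h₁ : 𝔭.a₁.IsMaximal) (h₂ : 𝔭.a₂.IsMaximal) (hf : 𝔹.f ∉ 𝔭.a₁) :
    gchi (𝔭.smul N) = gchi N - 1 := by
  haveI := H.ded₁
  haveI := H.ded₂
  haveI := H.ft₁
  haveI := H.ft₂
  haveI := hN.inv₁
  haveI := hN.inv₂
  have hb1 : 𝔭.a₁ ≠ ⊥ := Ring.ne_bot_of_isMaximal_of_not_isField h₁ H.nf₁
  have hb2 : 𝔭.a₂ ≠ ⊥ := Ring.ne_bot_of_isMaximal_of_not_isField h₂ H.nf₂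
  haveI hf1 : Module.Finite κ (𝔭.quot N).N₁ := H.finite_quot₁ hN 𝔭 hb1
  haveI hf2 : Module.Finite κ (𝔭.quot N).N₂ := H.finite_quot₂ hN 𝔭 hb2
  have hses := (gluedSES (𝔭.sub N).shortExact).gchi_eq
    (H.finCoh (H.isLineBundle_smul hN 𝔭 hb1 hb2)) (finCoh_of_finite _)
  have hd1 : Module.finrank κ (𝔭.quot N).N₁ = 1 :=
    H190.finrank_quotient_isMaximal κ 𝔭.a₁ (H190.finrank_quotient_maximal_eq_one κ 𝔭.a₁)
  have hd2 : Module.finrank κ (𝔭.quot N).N₂ = 1 :=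
    H190.finrank_quotient_isMaximal κ 𝔭.a₂ (H190.finrank_quotient_maximal_eq_one κ 𝔭.a₂)
  -- `T₁ → T₁₂` is bijective: `f` is invertible on `T₁`
  have hinj : Function.Injective (𝔭.quot N).ι₁ := by
    rw [injective_iff_map_eq_zero]
    intro x hx
    obtain ⟨m, hm⟩ := (𝔭.quot N).ker₁ x hx
    obtain ⟨n, rfl⟩ := Submodule.Quotient.mk_surjective _ x
    have hm' : 𝔹.f ^ m • n ∈ (𝔭.a₁ • ⊤ : Submodule 𝔹.B₁ N.N₁) := by
      rw [← Submodule.Quotient.mk_eq_zero, Submodule.Quotient.mk_smul]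
      exact hm
    have hfm : 𝔹.f ^ m ∉ 𝔭.a₁ := fun h => hf (h₁.isPrime.mem_of_pow_mem m h)
    obtain ⟨c, p, hp, hcp⟩ := h₁.exists_inv hfm
    rw [Submodule.Quotient.mk_eq_zero]
    have : n = c • (𝔹.f ^ m • n) + p • n := by
      rw [← mul_smul, ← add_smul, hcp, one_smul]
    rw [this]
    exact add_mem (Submodule.smul_mem _ _ hm') (Submodule.smul_mem_smul hp trivial)
  have hd12 : Module.finrank κ (𝔭.quot N).N₁₂ = 1 := by
    rw [← hd1]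
    exact (LinearEquiv.finrank_eq (LinearEquiv.ofBijective (𝔭.quot N).ι₁
      ⟨hinj, ι₁_surjective_of_finite _⟩)).symm
  rw [gchi_of_finite (𝔭.quot N), hd1, hd2, hd12] at hses
  rw [hses]
  simp

end Curve

/-! ### The chart of a curve -/

section Chart

variable {k : Type u} [Field k] (𝒞 : CurveData k) (κ : Type u) [Field κ] [Algebra k κ]

theorem ptHom_comp_r₁_surjective (x : 𝒞.A₁₂ →ₐ[k] k) :
    Function.Surjective (((ptHom 𝒞 κ x : (𝒞.chart κ).B₁₂ →+* κ)).comp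
      ((𝒞.chart κ).r₁ : (𝒞.chart κ).B₁ →+* (𝒞.chart κ).B₁₂)) := fun c =>
  ⟨algebraMap κ (𝒞.chart κ).B₁ c, by
    change ptHom 𝒞 κ x ((𝒞.chart κ).r₁ (algebraMap κ (𝒞.chart κ).B₁ c)) = c
    rw [AlgHom.commutes, AlgHom.commutes]
    rfl⟩

theorem ptHom_comp_r₂_surjective (x : 𝒞.A₁₂ →ₐ[k] k) :
    Function.Surjective (((ptHom 𝒞 κ x : (𝒞.chart κ).B₁₂ →+* κ)).comp
      ((𝒞.chart κ).r₂ : (𝒞.chart κ).B₂ →+* (𝒞.chart κ).B₁₂)) := fun c =>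
  ⟨algebraMap κ (𝒞.chart κ).B₂ c, by
    change ptHom 𝒞 κ x ((𝒞.chart κ).r₂ (algebraMap κ (𝒞.chart κ).B₂ c)) = c
    rw [AlgHom.commutes, AlgHom.commutes]
    rfl⟩

theorem ptDatum_a₁_isMaximal (x : 𝒞.A₁₂ →ₐ[k] k) : (ptDatum 𝒞 κ x).a₁.IsMaximal := by
  change (Ideal.comap ((𝒞.chart κ).r₁ : (𝒞.chart κ).B₁ →+* (𝒞.chart κ).B₁₂)
    (RingHom.ker (ptHom 𝒞 κ x : (𝒞.chart κ).B₁₂ →+* κ))).IsMaximal
  rw [RingHom.comap_ker]
  exact RingHom.ker_isMaximal_of_surjective _ (ptHom_comp_r₁_surjective 𝒞 κ x)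

theorem ptDatum_a₂_isMaximal (x : 𝒞.A₁₂ →ₐ[k] k) : (ptDatum 𝒞 κ x).a₂.IsMaximal := by
  change (Ideal.comap ((𝒞.chart κ).r₂ : (𝒞.chart κ).B₂ →+* (𝒞.chart κ).B₁₂)
    (RingHom.ker (ptHom 𝒞 κ x : (𝒞.chart κ).B₁₂ →+* κ))).IsMaximal
  rw [RingHom.comap_ker]
  exact RingHom.ker_isMaximal_of_surjective _ (ptHom_comp_r₂_surjective 𝒞 κ x)

theorem f_notMem_ptDatum_a₁ (x : 𝒞.A₁₂ →ₐ[k] k) : (𝒞.chart κ).f ∉ (ptDatum 𝒞 κ x).a₁ := by
  intro h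
  have h0 : ptHom 𝒞 κ x ((𝒞.chart κ).r₁ (𝒞.chart κ).f) = 0 := h
  have h1 : ptHom 𝒞 κ x ((𝒞.chart κ).r₁ (𝒞.chart κ).f * (𝒞.chart κ).r₂ (𝒞.chart κ).g) = 1 := by
    rw [(𝒞.chart κ).fg, map_one]
  rw [map_mul, h0, zero_mul] at h1
  exact zero_ne_one h1

variable [IsAlgClosed κ]

theorem divDatum_ne_bot (H : CurveChartHyp (𝒞.chart κ)) (l : List (𝒞.A₁₂ →ₐ[k] k)) :
    (divDatum 𝒞 κ l).a₁ ≠ ⊥ ∧ (divDatum 𝒞 κ l).a₂ ≠ ⊥ := by
  haveI := H.ded₁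
  haveI := H.ded₂
  induction l with
  | nil =>
    change (1 : IdealDatum (𝒞.chart κ)).a₁ ≠ ⊥ ∧ (1 : IdealDatum (𝒞.chart κ)).a₂ ≠ ⊥
    rw [IdealDatum.one_a₁, IdealDatum.one_a₂]
    exact ⟨top_ne_bot, top_ne_bot⟩
  | cons x l ih =>
    have h : divDatum 𝒞 κ (x :: l) = ptDatum 𝒞 κ x * divDatum 𝒞 κ l := by
      unfold divDatum
      rw [List.map_cons, List.prod_cons]
    rw [h, IdealDatum.mul_a₁, IdealDatum.mul_a₂]
    exact ⟨mul_ne_zero (Ring.ne_bot_of_isMaximal_of_not_isField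
        (ptDatum_a₁_isMaximal 𝒞 κ x) H.nf₁) ih.1,
      mul_ne_zero (Ring.ne_bot_of_isMaximal_of_not_isField
        (ptDatum_a₂_isMaximal 𝒞 κ x) H.nf₂) ih.2⟩

theorem smul_divDatum_isLineBundle (H : CurveChartHyp (𝒞.chart κ))
    (L : GluedModule (𝒞.chart κ)) (hL : L.IsLineBundle) (l : List (𝒞.A₁₂ →ₐ[k] k)) :
    ((divDatum 𝒞 κ l).smul L).IsLineBundle :=
  H.isLineBundle_smul hL _ (divDatum_ne_bot 𝒞 κ H l).1 (divDatum_ne_bot 𝒞 κ H l).2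

/-- `χ((x₁ ⋯ x_m) • L) = χ(L) - m`. -/
theorem gchi_smul_divDatum (H : CurveChartHyp (𝒞.chart κ))
    (L : GluedModule (𝒞.chart κ)) (hL : L.IsLineBundle) (l : List (𝒞.A₁₂ →ₐ[k] k)) :
    gchi ((divDatum 𝒞 κ l).smul L) = gchi L - (l.length : ℤ) := by
  induction l with
  | nil =>
    rw [List.length_nil, Nat.cast_zero, sub_zero]
    exact gchi_congr (oneSmulIso L)
  | cons x l ih =>
    have h : divDatum 𝒞 κ (x :: l) = ptDatum 𝒞 κ x * divDatum 𝒞 κ l := by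
      unfold divDatum
      rw [List.map_cons, List.prod_cons]
    rw [h, ← gchi_congr (smulSmulIso (ptDatum 𝒞 κ x) (divDatum 𝒞 κ l) L),
      gchi_smul_of_isMaximal H (smul_divDatum_isLineBundle 𝒞 κ H L hL l) _
        (ptDatum_a₁_isMaximal 𝒞 κ x) (ptDatum_a₂_isMaximal 𝒞 κ x) (f_notMem_ptDatum_a₁ 𝒞 κ x),
      ih, List.length_cons]
    push_cast
    ring

/-- CHIK with the leaves `INST` and `N0` as hypotheses. -/
theorem chi_smul_twist_core (H : CurveChartHyp (𝒞.chart κ))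
    (hn₀ : Module.finrank κ ((𝒞.chart κ).B₂ ⧸ Ideal.span {(𝒞.chart κ).g}) = n₀ 𝒞)
    (L : GluedModule (𝒞.chart κ)) (hL : L.IsLineBundle)
    (l : List (𝒞.A₁₂ →ₐ[k] k)) (N : ℕ) :
    GluedModule.chi (((divDatum 𝒞 κ l).smul L).twist (N : ℤ)) =
      GluedModule.chi L + (N : ℤ) * n₀ 𝒞 - l.length := by
  have h1 := gchi_twist_nat H (smul_divDatum_isLineBundle 𝒞 κ H L hL l) N
  rw [gchi_smul_divDatum 𝒞 κ H L hL l, hn₀] at h1
  change gchi (((divDatum 𝒞 κ l).smul L).twist (N : ℤ)) = gchi L + (N : ℤ) * n₀ 𝒞 - l.length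
  rw [h1]
  ring

end Chart

end Fermat.Agent.S25.ATLAS.TW.CHIK
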